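/-
S55 / block BR-PKG (helper176) : the bridges around block BR.
* (P1) `BRInput p` from `LocPkg` (LOC), `NITOut` (DICT/NIT) and Hilbert 90;
* (P2) `BrPkg p L` (the interface consumed by UNITS) from the exports of BR.
This file: definitions only.  `zpLayer p U M` is the subgroup of `U` cutting out the `M`-th layer of
the cyclotomic `ℤ_p`-extension of the fixed field of `U` (no hypothesis on `μ_p`).
-/
import Fermat.Agent.S55.BR.Defs

set_option autoImplicit false

namespace Fermat.Agent.S55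

/-- `g ↦ χ_{p^M}(g)^(p-1)`: the character of the cyclotomic `ℤ_p`-extension, modulo `p^M`. -/
noncomputable def zpChar (p : ℕ) [Fact p.Prime] (M : ℕ) : GQ →* (ZMod (p ^ M))ˣ :=
  haveI : NeZero (p ^ M) := ⟨pow_ne_zero _ (Fact.out : p.Prime).ne_zero⟩
  (powMonoidHom (p - 1)).comp (BR.cycN (p ^ M))

theorem zpChar_apply (p : ℕ) [Fact p.Prime] (M : ℕ) [NeZero (p ^ M)] (g : GQ) :
    zpChar p M g = BR.cycN (p ^ M) g ^ (p - 1) := rfl

/-- `U ∩ Gal(ℚ̄/ℚ_{M-1})`, `ℚ_{M-1} ⊆ ℚ(μ_{p^M})` the layer of degree `p^(M-1)` of the cyclotomic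
`ℤ_p`-extension. -/
noncomputable def zpLayer (p : ℕ) [Fact p.Prime] (U : Subgroup GQ) (M : ℕ) : Subgroup GQ :=
  U ⊓ (zpChar p M).ker

theorem zpLayer_le (p : ℕ) [Fact p.Prime] (U : Subgroup GQ) (M : ℕ) : zpLayer p U M ≤ U :=
  inf_le_left

theorem mem_zpLayer {p : ℕ} [Fact p.Prime] {U : Subgroup GQ} {M : ℕ} {g : GQ} :
    g ∈ zpLayer p U M ↔ g ∈ U ∧ zpChar p M g = 1 := Iff.rfl

theorem mem_cycLayer {p : ℕ} [Fact p.Prime] {U : Subgroup GQ} {M : ℕ} [NeZero (p ^ M)] {g : GQ} :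
    g ∈ cycLayer p U M ↔ g ∈ U ∧ BR.cycN (p ^ M) g = 1 := Iff.rfl

/-- The family of local classes on all primes obtained from a family on `S` (zero outside `S`). -/
noncomputable def extendZero (S : Finset Nat.Primes) (X : Type) [MulAction GQ X]
    (y : ∀ q : ↥S, Hloc q.1 (IndMod X Kx) 2) (q : Nat.Primes) : Hloc q (IndMod X Kx) 2 :=
  open Classical in if h : q ∈ S then y ⟨q, h⟩ else 0

theorem extendZero_of_mem {S : Finset Nat.Primes} {X : Type} [MulAction GQ X]
    (y : ∀ q : ↥S, Hloc q.1 (IndMod X Kx) 2) (q : ↥S) : extendZero S X y q.1 = y q := by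
  unfold extendZero
  rw [dif_pos q.2]

theorem extendZero_of_not_mem {S : Finset Nat.Primes} {X : Type} [MulAction GQ X]
    (y : ∀ q : ↥S, Hloc q.1 (IndMod X Kx) 2) {q : Nat.Primes} (hq : q ∉ S) :
    extendZero S X y q = 0 := by
  unfold extendZero
  rw [dif_neg hq]

end Fermat.Agent.S55
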