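/-
S55 / block BR-PKG : group theory of the subgroups `cycLayer p U M = U ⊓ ker χ_{p^M}` and
`zpLayer p U M = U ⊓ ker (χ_{p^M}^(p-1))`.   Owner: helper184.
-/
import Fermat.Agent.S55.BR.Pkg.Defs
import Fermat.Agent.S55.BR.Cyc
import Fermat.Agent.S55.Coh.Coset

set_option autoImplicit false

namespace Fermat.Agent.S55

section Layer

variable (p : ℕ) [Fact p.Prime] (U : Subgroup GQ) (M : ℕ)

theorem Layer_neZero : NeZero (p ^ M) := ⟨pow_ne_zero _ (Fact.out : p.Prime).ne_zero⟩

theorem cycLayer_le_zpLayer : cycLayer p U M ≤ zpLayer p U M := by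
  haveI := Layer_neZero p M
  intro g hg
  rw [mem_cycLayer] at hg
  rw [mem_zpLayer, zpChar_apply, hg.2, one_pow]
  exact ⟨hg.1, rfl⟩

theorem Layer_coprime_pred : (p - 1).Coprime p := by
  have hp : p.Prime := Fact.out
  have h4 := hp.two_le
  exact ((Nat.Prime.coprime_iff_not_dvd hp).2
    (Nat.not_dvd_of_pos_of_lt (by omega) (by omega))).symm

/-- a finite group killed by `p - 1` has order prime to `p` -/
theorem Layer_coprime_card {C : Type*} [Group C] [Finite C] (h : ∀ c : C, c ^ (p - 1) = 1) :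
    (Nat.card C).Coprime p := by
  have hp : p.Prime := Fact.out
  rw [Nat.coprime_comm, Nat.Prime.coprime_iff_not_dvd hp]
  intro hdvd
  obtain ⟨x, hx⟩ := exists_prime_orderOf_dvd_card' p hdvd
  have h1 : p ∣ p - 1 := by
    have h2 := orderOf_dvd_of_pow_eq_one (h x)
    rwa [hx] at h2
  have h4 := hp.two_le
  exact Nat.not_dvd_of_pos_of_lt (by omega) (by omega) h1

/-- `[zpLayer : cycLayer]` divides a power of `p - 1` -/
theorem coprime_relIndex_cycLayer_zpLayer :
    ((cycLayer p U M).relIndex (zpLayer p U M)).Coprime p := by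
  haveI := Layer_neZero p M
  have e : cycLayer p U M = zpLayer p U M ⊓ (BR.cycN (p ^ M)).ker := by
    ext g
    constructor
    · intro hg
      exact ⟨cycLayer_le_zpLayer p U M hg, hg.2⟩
    · intro hg
      exact ⟨hg.1.1, hg.2⟩
  rw [e, Subgroup.inf_relIndex_left, Subgroup.relIndex_ker]
  apply Layer_coprime_card
  rintro ⟨_, g, hg, rfl⟩
  apply Subtype.ext
  have := (mem_zpLayer.1 hg).2
  rw [zpChar_apply] at this
  exact this

/-- `[U : U ⊓ ker χ_p]` divides `p - 1` -/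
theorem coprime_relIndex_cycLayer_one : ((cycLayer p U 1).relIndex U).Coprime p := by
  haveI := Layer_neZero p 1
  have hp : p.Prime := Fact.out
  have e : cycLayer p U 1 = U ⊓ (BR.cycN (p ^ 1)).ker := rfl
  rw [e, Subgroup.inf_relIndex_left, Subgroup.relIndex_ker]
  have h1 : Nat.card (U.map (BR.cycN (p ^ 1))) ∣ p - 1 := by
    have h2 := Subgroup.card_subgroup_dvd_card (U.map (BR.cycN (p ^ 1)))
    rwa [Nat.card_eq_fintype_card (α := (ZMod (p ^ 1))ˣ), ZMod.card_units_eq_totient,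
      Nat.totient_prime_pow hp one_pos, Nat.sub_self, pow_zero, one_mul] at h2
  exact Nat.Coprime.coprime_dvd_left h1 (Layer_coprime_pred p)

theorem actsTrivially_cycLayer_one : ActsTrivially (cycLayer p U 1) (Mu p) := by
  haveI := Layer_neZero p 1
  intro u hu a
  have h1 := (BR.cycN_eq_one_iff (p ^ 1) u).1 (mem_cycLayer.1 hu).2
  apply (muSub p).incl_injective
  rw [GSub.incl_smul]
  have ha : ((muSub p).incl a).val ^ p = 1 := by
    have h := (muSub p).incl_mem a
    change p • (muSub p).incl a = 0 at h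
    have h2 : (Additive.toMul ((muSub p).incl a) : Qbˣ) ^ p = 1 := by
      have := congrArg Additive.toMul h
      simpa using this
    have h3 := congrArg (fun u : Qbˣ => (u : Qb)) h2
    simpa [Kx.val] using h3
  apply Additive.toMul.injective
  apply Units.ext
  exact h1 _ (by rw [pow_one]; exact ha)

theorem cycLayer_succ_le : cycLayer p U (M + 1) ≤ cycLayer p (cycLayer p U 1) M := by
  haveI := Layer_neZero p (M + 1)
  haveI := Layer_neZero p M
  haveI := Layer_neZero p 1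
  intro g hg
  rw [mem_cycLayer] at hg
  have h1 : BR.cycN (p ^ 1) g = 1 := by
    rw [← BR.cycN_cast (pow_dvd_pow p (Nat.succ_le_succ (Nat.zero_le M))) g, hg.2, map_one]
  have hM : BR.cycN (p ^ M) g = 1 := by
    rw [← BR.cycN_cast (pow_dvd_pow p (Nat.le_succ M)) g, hg.2, map_one]
  exact mem_cycLayer.2 ⟨mem_cycLayer.2 ⟨hg.1, h1⟩, hM⟩

/-- `GQ ⧸ zpLayer p U M → GQ ⧸ U` is a cyclic cover of `p`-power degree (`p` odd). -/
theorem exists_cyclicCover_zpLayer (hp2 : p ≠ 2) :
    ∃ (s : GQ) (hs : ∀ v ∈ zpLayer p U M, s⁻¹ * v * s ∈ zpLayer p U M) (k : ℕ),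
      CyclicCover (cosetMap (zpLayer_le p U M)) (cosetRight (zpLayer p U M) s hs) (p ^ k) := by
  haveI := Layer_neZero p M
  have hp : p.Prime := Fact.out
  haveI : IsCyclic (ZMod (p ^ M))ˣ := ZMod.isCyclic_units_of_prime_pow p hp hp2 M
  set ψ := zpChar p M with hψ
  -- the image of `U` is a cyclic `p`-group
  have hidx : (zpLayer p U M).relIndex U = Nat.card (U.map ψ) := by
    have e : zpLayer p U M = U ⊓ ψ.ker := rfl
    rw [e, Subgroup.inf_relIndex_left, Subgroup.relIndex_ker]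
  have hpg : IsPGroup p (U.map ψ) := by
    rintro ⟨_, g, -, rfl⟩
    refine ⟨M, Subtype.ext ?_⟩
    show (ψ g) ^ p ^ M = 1
    rw [hψ, zpChar_apply, ← pow_mul]
    have hcard : Nat.card (ZMod (p ^ M))ˣ ∣ (p - 1) * p ^ M := by
      rw [Nat.card_eq_fintype_card, ZMod.card_units_eq_totient]
      rcases Nat.eq_zero_or_pos M with rfl | hM
      · simp
      · rw [Nat.totient_prime_pow hp hM, mul_comm]
        exact Nat.mul_dvd_mul_left _ (pow_dvd_pow p (Nat.sub_le M 1))
    obtain ⟨t, ht⟩ := hcard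
    rw [ht, pow_mul, pow_card_eq_one', one_pow]
  obtain ⟨k, hk⟩ := IsPGroup.iff_card.1 hpg
  obtain ⟨⟨_, s, hsU, rfl⟩, hc⟩ := IsCyclic.exists_generator (α := U.map ψ)
  have hs : ∀ v ∈ zpLayer p U M, s⁻¹ * v * s ∈ zpLayer p U M := by
    intro v hv
    rw [mem_zpLayer] at hv ⊢
    refine ⟨U.mul_mem (U.mul_mem (U.inv_mem hsU) hv.1) hsU, ?_⟩
    rw [map_mul, map_mul, hv.2, mul_one, map_inv, inv_mul_cancel]
  refine ⟨s, hs, k, cyclicCover_coset (zpLayer_le p U M) s hsU hs (p ^ k)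
    (pow_pos hp.pos k) (hidx.trans hk) ?_⟩
  intro g hg
  have h1 := hc ⟨ψ g, g, hg, rfl⟩
  rw [← mem_powers_iff_mem_zpowers] at h1
  obtain ⟨n, hn⟩ := h1
  have hn' : ψ s ^ n = ψ g := congrArg Subtype.val hn
  refine ⟨n, mem_zpLayer.2 ⟨U.mul_mem (U.inv_mem (U.pow_mem hsU n)) hg, ?_⟩⟩
  rw [map_mul, map_inv, map_pow, ← hψ, hn', inv_mul_cancel]

end Layer

end Fermat.Agent.S55
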