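/-
S55 / block BR-PKG, task PKG-LayerOpen : `ℚ(μ_{p^M})` is an `S`-level when `p ∈ S`; the layers
`zpLayer p U M`, `cycLayer p U M` of an open subgroup `U` are open.
-/
import Fermat.Agent.S55.BR.Pkg.Defs
import Fermat.Agent.S55.BR.Cyc
import Fermat.Agent.S55.Bridge.SmoothRep
import Fermat.Agent.S55.Bridge.Glue

set_option autoImplicit false
set_option linter.style.haveILetI false
set_option linter.unusedSectionVars false

namespace Fermat.Agent.S55

section LayerOpen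

variable (p : ℕ) [Fact p.Prime]

/-- `ℚ(μ_{p^M})` is a finite Galois extension of `ℚ` unramified outside `S ∋ p` -/
theorem isOpen_ker_cycN_lvlS (S : Finset Nat.Primes) (hpS : ∃ q ∈ S, (q : ℕ) = p) (M : ℕ)
    [NeZero (p ^ M)] : (lvlS S).IsOpen (BR.cycN (p ^ M)).ker := by
  obtain ⟨F1, hfd, -, h1⟩ := BR.cycN_level (p ^ M)
  haveI : FiniteDimensional ℚ F1 := hfd
  obtain ⟨F, hF, hn, hfix⟩ := Bridge.exists_level_of_normal_subgroup S (BR.cycN (p ^ M)).ker F1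
    (fun σ hσ => MonoidHom.mem_ker.2 (h1 σ hσ))
    (fun q hq A hA σ hσ => MonoidHom.mem_ker.2 (BR.cycN_inertia (p ^ M) q.2 (by
      intro hdvd
      have h2 : (q : ℕ) = p :=
        (Nat.prime_dvd_prime_iff_eq q.2 (Fact.out : p.Prime)).1 (q.2.dvd_of_dvd_pow hdvd)
      obtain ⟨q', hq', hq'p⟩ := hpS
      have : q = q' := Subtype.ext (h2.trans hq'p.symm)
      exact hq (this ▸ hq')) A hA hσ))
  exact ⟨_, ⟨F, hF, Bridge.isStableField_of_normal F hn, rfl⟩, hfix.le⟩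

/-- the kernel of the cyclotomic character is contained in the kernel of `zpChar`. -/
theorem LayerOpen_ker_cycN_le (M : ℕ) [NeZero (p ^ M)] :
    (BR.cycN (p ^ M)).ker ≤ (zpChar p M).ker := by
  intro g hg
  rw [MonoidHom.mem_ker] at hg ⊢
  rw [zpChar_apply, hg, one_pow]

/-- `ℚ(μ_{p^M})` is a finite Galois extension of `ℚ`. -/
theorem LayerOpen_isOpen_ker_cycN (M : ℕ) [NeZero (p ^ M)] :
    lvlAll.IsOpen (BR.cycN (p ^ M)).ker := by
  obtain ⟨F, hfd, hn, h1⟩ := BR.cycN_level (p ^ M)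
  exact ⟨_, ⟨F, hfd, Bridge.isStableField_of_normal F hn, rfl⟩,
    fun σ hσ => MonoidHom.mem_ker.2 (h1 σ hσ)⟩

theorem zpLayer_isOpen_lvlS (S : Finset Nat.Primes) (hpS : ∃ q ∈ S, (q : ℕ) = p)
    {U : Subgroup GQ} (hU : (lvlS S).IsOpen U) (M : ℕ) : (lvlS S).IsOpen (zpLayer p U M) := by
  haveI : NeZero (p ^ M) := ⟨pow_ne_zero _ (Fact.out : p.Prime).ne_zero⟩
  exact hU.inf ((isOpen_ker_cycN_lvlS p S hpS M).mono (LayerOpen_ker_cycN_le p M))

theorem zpLayer_isOpen {U : Subgroup GQ} (hU : lvlAll.IsOpen U) (M : ℕ) :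
    lvlAll.IsOpen (zpLayer p U M) := by
  haveI : NeZero (p ^ M) := ⟨pow_ne_zero _ (Fact.out : p.Prime).ne_zero⟩
  exact hU.inf ((LayerOpen_isOpen_ker_cycN p M).mono (LayerOpen_ker_cycN_le p M))

theorem cycLayer_isOpen' {U : Subgroup GQ} (hU : lvlAll.IsOpen U) (M : ℕ) :
    lvlAll.IsOpen (cycLayer p U M) := by
  haveI : NeZero (p ^ M) := ⟨pow_ne_zero _ (Fact.out : p.Prime).ne_zero⟩
  exact hU.inf (LayerOpen_isOpen_ker_cycN p M)

end LayerOpen

end Fermat.Agent.S55
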