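/-
S55 / block BR-PKG, file `BR/Pkg/General.lean` (task PKG-General, proof by helper292): B4 and B5 of
block BR for an ARBITRARY open subgroup `U` (no hypothesis on `μ_p`): reduction to `U ⊓ ker χ_p` by
pull / push (the index is prime to `p`).
-/
import Fermat.Agent.S55.BR.Pkg.Defs
import Fermat.Agent.S55.BR.Pkg.Layer
import Fermat.Agent.S55.BR.Pkg.LayerOpen
import Fermat.Agent.S55.BR.Exist
import Fermat.Agent.S55.BR.CycSplit
import Fermat.Agent.S55.Coh.ResApi
import Fermat.Agent.S55.Coh.PPrimary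
import Fermat.Agent.S55.Coh.IndApi
import Fermat.Agent.S55.Coh.Coset

set_option autoImplicit false

namespace Fermat.Agent.S55

section General

variable {p : ℕ} [Fact p.Prime]

/-- multiplication by an integer prime to `p` is onto on the `p`-primary part -/
theorem exists_nsmul_eq_of_mem_pPrimary {M : Type} [AddCommGroup M] {m : ℕ} (hm : m.Coprime p)
    {x : M} (hx : x ∈ pPrimary p M) : ∃ x' ∈ pPrimary p M, m • x' = x := by
  obtain ⟨k, hk⟩ := hx
  obtain ⟨a, b, hab⟩ := Nat.isCoprime_iff_coprime.mpr (hm.pow_right k)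
  refine ⟨a • x, ⟨k, ?_⟩, ?_⟩
  · rw [smul_comm, hk, smul_zero]
  · have h1 : ((a * (m : ℤ) + b * ((p ^ k : ℕ) : ℤ)) : ℤ) • x = (m : ℤ) • a • x := by
      rw [add_smul, mul_smul, mul_smul, natCast_zsmul x (p ^ k), hk, smul_zero, add_zero,
        smul_comm]
    rw [hab, one_smul] at h1
    rw [← natCast_zsmul, ← h1]

/-- naturality of the localisation in the coefficients (local copy of `locAll_map`, so that this
file does not depend on `BR/LocNat.lean`) -/
theorem general_locAll_map {A B : Type} [AddCommGroup A] [DistribMulAction GQ A] [AddCommGroup B]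
    [DistribMulAction GQ B] (q : Nat.Primes) (φ : A →+[GQ] B) (n : ℕ) (x : Hsm lvlAll A n) :
    locAll B q n (Hsm.map φ n x) = Hsm.map (ResMod.map (ιv q) φ) n (locAll A q n x) :=
  Hsm.res_map (ιv q) (LevelSys.Le.refl _) φ n x

/-- local version of `cor ∘ res = degree` -/
theorem general_map_push_pull_loc (q : Nat.Primes) {X Y : Type} [MulAction GQ X] [MulAction GQ Y]
    [Finite Y] (u : Y →[GQ] X) (m : ℕ) (hm : ∀ x, Nat.card {y // u y = x} = m) (n : ℕ)
    (x : Hloc q (IndMod X Kx) n) :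
    Hsm.map (ResMod.map (ιv q) (IndMod.push Kx u)) n
      (Hsm.map (ResMod.map (ιv q) (IndMod.pull Kx u)) n x) = m • x := by
  rw [← Hsm.map_comp]
  refine Hsm.map_nsmul' m (fun f => ?_) n x
  show ResMod.toRes (ιv q) (IndMod.push Kx u (IndMod.pull Kx u ((ResMod.toRes (ιv q)).symm f))) = _
  rw [IndMod.push_pull u m hm, map_nsmul, AddEquiv.apply_symm_apply]

/-- functoriality of the restriction maps between coset spaces -/
theorem general_pull_pull {U'' U' U : Subgroup GQ} (h' : U'' ≤ U') (h : U' ≤ U) (h'' : U'' ≤ U)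
    (n : ℕ) (x : Hsm lvlAll (IndMod (GQ ⧸ U) Kx) n) :
    Hsm.map (IndMod.pull Kx (cosetMap h')) n (Hsm.map (IndMod.pull Kx (cosetMap h)) n x) =
      Hsm.map (IndMod.pull Kx (cosetMap h'')) n x := by
  refine (Hsm.map_comp' (fun f => ?_) n x).symm
  ext y
  induction y using QuotientGroup.induction_on with
  | H a => rfl

/-- **B4** for an arbitrary open subgroup. -/
theorem exists_global' (hp2 : p ≠ 2) (I : BRInput p) {U : Subgroup GQ} (hU : lvlAll.IsOpen U)
    [Finite (GQ ⧸ U)] (y : ∀ q : Nat.Primes, Hloc q (IndMod (GQ ⧸ U) Kx) 2)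
    (hy : Adm p I.inv (GQ ⧸ U) y) :
    ∃ x ∈ pPrimary p (Hsm lvlAll (IndMod (GQ ⧸ U) Kx) 2),
      ∀ q, locAll (IndMod (GQ ⧸ U) Kx) q 2 x = y q := by
  have h₁ : cycLayer p U 1 ≤ U := cycLayer_le p U 1
  have hU₁ : lvlAll.IsOpen (cycLayer p U 1) := cycLayer_isOpen' p hU 1
  have hfin : Finite (GQ ⧸ cycLayer p U 1) := finite_coset hU₁
  set m : ℕ := (cycLayer p U 1).relIndex U with hm
  have hcop : m.Coprime p := coprime_relIndex_cycLayer_one p U
  have hfib : ∀ x : GQ ⧸ U, Nat.card {z // cosetMap h₁ z = x} = m := cosetMap_card_fiber h₁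
  have hy₁ := hy.pull (cosetMap h₁) m hfib
  obtain ⟨x₁, hx₁, hloc₁⟩ := exists_global hp2 I hU₁ (actsTrivially_cycLayer_one p U) _ hy₁
  have hx₂ : Hsm.map (IndMod.push Kx (cosetMap h₁)) 2 x₁ ∈
      pPrimary p (Hsm lvlAll (IndMod (GQ ⧸ U) Kx) 2) := map_mem_pPrimary _ hx₁
  obtain ⟨x, hx, hmx⟩ := exists_nsmul_eq_of_mem_pPrimary hcop hx₂
  refine ⟨x, hx, fun q => ?_⟩
  have hprim : locAll (IndMod (GQ ⧸ U) Kx) q 2 x - y q ∈
      pPrimary p (Hloc q (IndMod (GQ ⧸ U) Kx) 2) :=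
    (pPrimary p _).sub_mem (map_mem_pPrimary _ hx) (hy.prim q)
  have hzero : m • (locAll (IndMod (GQ ⧸ U) Kx) q 2 x - y q) = 0 := by
    rw [smul_sub, ← map_nsmul, hmx, general_locAll_map, hloc₁ q,
      general_map_push_pull_loc q (cosetMap h₁) m hfib, sub_self]
  exact sub_eq_zero.1 (eq_zero_of_mem_pPrimary_of_coprime hcop hprim hzero)

/-- **B5** for an arbitrary open subgroup: a `p`-primary class supported on a finite set of primes
is split by a layer of the cyclotomic `ℤ_p`-extension. -/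
theorem exists_zpLayer_split (hp2 : p ≠ 2) (I : BRInput p) {U : Subgroup GQ}
    (hU : lvlAll.IsOpen U) (T : Finset Nat.Primes) (x : Hsm lvlAll (IndMod (GQ ⧸ U) Kx) 2)
    (hx : x ∈ pPrimary p (Hsm lvlAll (IndMod (GQ ⧸ U) Kx) 2))
    (hloc : ∀ q, q ∉ T → locAll (IndMod (GQ ⧸ U) Kx) q 2 x = 0) :
    ∃ M : ℕ, Hsm.map (IndMod.pull Kx (cosetMap (zpLayer_le p U M))) 2 x = 0 := by
  have h₁ : cycLayer p U 1 ≤ U := cycLayer_le p U 1
  have hU₁ : lvlAll.IsOpen (cycLayer p U 1) := cycLayer_isOpen' p hU 1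
  obtain ⟨M, hM⟩ := exists_cycLayer_split hp2 I hU₁ (actsTrivially_cycLayer_one p U) T
    (Hsm.map (IndMod.pull Kx (cosetMap h₁)) 2 x) (map_mem_pPrimary _ hx) (fun q hq => by
      rw [general_locAll_map, hloc q hq, map_zero])
  refine ⟨M + 1, ?_⟩
  -- `V = cycLayer p U (M + 1)`
  have hVle : cycLayer p U (M + 1) ≤ cycLayer p (cycLayer p U 1) M := cycLayer_succ_le p U M
  have hVU : cycLayer p U (M + 1) ≤ U := cycLayer_le p U (M + 1)
  have hVZ : cycLayer p U (M + 1) ≤ zpLayer p U (M + 1) := cycLayer_le_zpLayer p U (M + 1)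
  have hVo : lvlAll.IsOpen (cycLayer p U (M + 1)) := cycLayer_isOpen' p hU (M + 1)
  have hfin : Finite (GQ ⧸ cycLayer p U (M + 1)) := finite_coset hVo
  have hV0 : Hsm.map (IndMod.pull Kx (cosetMap hVU)) 2 x = 0 := by
    rw [← general_pull_pull (hVle.trans (cycLayer_le p _ M)) h₁ hVU,
      ← general_pull_pull hVle (cycLayer_le p (cycLayer p U 1) M)
        (hVle.trans (cycLayer_le p _ M)), hM, map_zero]
  have hcop : ((cycLayer p U (M + 1)).relIndex (zpLayer p U (M + 1))).Coprime p :=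
    coprime_relIndex_cycLayer_zpLayer p U (M + 1)
  refine eq_zero_of_mem_pPrimary_of_coprime hcop (map_mem_pPrimary _ hx) ?_
  rw [← Hsm.map_push_pull (cosetMap hVZ) _ (cosetMap_card_fiber hVZ),
    general_pull_pull hVZ (zpLayer_le p U (M + 1)) hVU, hV0, map_zero]

end General

end Fermat.Agent.S55
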