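/-
S55 / block BR-PKG (P2) : `BrPkg p L` (interface BR → UNITS, `Arith/BrInterface.lean`) from the exports
of block BR (helper176).
-/
import Fermat.Agent.S55.Arith.BrInterface
import Fermat.Agent.S55.BR.Pkg.Defs
import Fermat.Agent.S55.BR.Pkg.Layer
import Fermat.Agent.S55.BR.Pkg.LayerOpen
import Fermat.Agent.S55.BR.Pkg.General
import Fermat.Agent.S55.BR.Hasse
import Fermat.Agent.S55.BR.Recip

set_option autoImplicit false

namespace Fermat.Agent.S55

variable {p : ℕ} [Fact p.Prime]

theorem locA_eq_locAll (A : Type) [AddCommGroup A] [DistribMulAction GQ A] (q : Nat.Primes)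
    (n : ℕ) : locA A q n = locAll A q n := rfl

theorem invX_eq_invTot (L : ∀ q, LocPkg p q) (inv : ∀ q : Nat.Primes, Hloc q Kx 2 →+ QZ)
    (hI : ∀ q, inv q = (L q).inv) (q : Nat.Primes) (X : Type) [MulAction GQ X] [Finite X] :
    invX (L q) X = invTot inv q X := by
  unfold invX invTot
  rw [hI q]

/-- the extension by zero of a family with sum of invariants zero is admissible -/
theorem adm_extendZero (inv : ∀ q : Nat.Primes, Hloc q Kx 2 →+ QZ) (S : Finset Nat.Primes)
    (X : Type) [MulAction GQ X] [Finite X] (y : ∀ q : ↥S, Hloc q.1 (IndMod X Kx) 2)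
    (hy : ∀ q, y q ∈ pPrimary p (Hloc q.1 (IndMod X Kx) 2))
    (hs : ∑ q : ↥S, invTot inv q.1 X (y q) = 0) : Adm p inv X (extendZero S X y) where
  prim q := by
    by_cases h : q ∈ S
    · have := extendZero_of_mem y ⟨q, h⟩
      rw [this]
      exact hy ⟨q, h⟩
    · rw [extendZero_of_not_mem y h]
      exact zero_mem _
  fin := by
    refine (Finset.finite_toSet S).subset fun q hq => ?_
    by_contra h
    exact hq (extendZero_of_not_mem y h)
  sum := by
    rw [finsum_eq_sum_of_support_subset (s := S) _ (by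
      intro q hq
      by_contra h
      apply hq
      have h' : q ∉ S := h
      show invTot inv q X (extendZero S X y q) = 0
      rw [extendZero_of_not_mem y h', map_zero]), ← hs, ← Finset.sum_coe_sort S]
    refine Finset.sum_congr rfl fun q _ => ?_
    rw [extendZero_of_mem y q]

/-- **(P2)** -/
theorem brPkg_of (hp2 : p ≠ 2) (L : ∀ q, LocPkg p q) (I : BRInput p)
    (hI : ∀ q, I.inv q = (L q).inv) : BrPkg p L where
  B1 U hU x hx hloc := hasse_coset (Fact.out : p.Prime) I hU x hx hloc
  B3 U hU _ x hx T hT := by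
    have : SmoothSet lvlAll (GQ ⧸ U) := smoothSet_coset hU
    have h := reciprocity hp2 I (GQ ⧸ U) x hx
    rw [finsum_eq_sum_of_support_subset (s := T) _ (by
      intro q hq
      by_contra h'
      apply hq
      have h'' : q ∉ T := h'
      have := hT q h''
      rw [locA_eq_locAll] at this
      show invTot I.inv q (GQ ⧸ U) (locAll (IndMod (GQ ⧸ U) Kx) q 2 x) = 0
      rw [this, map_zero])] at h
    rw [← h]
    refine Finset.sum_congr rfl fun q _ => ?_
    rw [invX_eq_invTot L I.inv hI]
    rfl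
  B4 S hpS U hU _ _ y hy hs := by
    have hUall : lvlAll.IsOpen U := by
      obtain ⟨N, hN, hNU⟩ := hU
      obtain ⟨N', hN', hle⟩ := lvlS_le_lvlAll S N hN
      exact ⟨N', hN', hle.trans hNU⟩
    have hadm : Adm p I.inv (GQ ⧸ U) (extendZero S (GQ ⧸ U) y) := by
      refine adm_extendZero I.inv S (GQ ⧸ U) y hy ?_
      rw [← hs]
      refine Finset.sum_congr rfl fun q _ => ?_
      rw [invX_eq_invTot L I.inv hI]
    obtain ⟨x, hx, hxy⟩ := exists_global' hp2 I hUall _ hadm
    obtain ⟨M, hM⟩ := exists_zpLayer_split hp2 I hUall S x hx (fun q hq => by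
      rw [hxy q, extendZero_of_not_mem y hq])
    obtain ⟨s, hs', k, hc⟩ := exists_cyclicCover_zpLayer p U M hp2
    have hZS : (lvlS S).IsOpen (zpLayer p U M) := zpLayer_isOpen_lvlS p S hpS hU M
    have hZ : lvlAll.IsOpen (zpLayer p U M) := zpLayer_isOpen p hUall M
    have i1 : Finite (GQ ⧸ zpLayer p U M) := finite_coset hZ
    have i2 : SmoothSet (lvlS S) (GQ ⧸ zpLayer p U M) := SmoothSet.quotient _ hZS
    have i3 : SmoothSet lvlAll (GQ ⧸ zpLayer p U M) := smoothSet_coset hZ
    obtain ⟨b, hb⟩ := (CyclicCover.exists_theta_eq_iff lvlAll Kx hc 0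
      (fun z => I.h90g (GQ ⧸ zpLayer p U M) z) x).2 hM
    refine ⟨GQ ⧸ zpLayer p U M, inferInstance, i1, i2, i3, cosetMap (zpLayer_le p U M),
      cosetRight (zpLayer p U M) s hs', k, hc, b, fun q => ?_, fun q hq => ?_⟩
    · rw [hb, locA_eq_locAll, hxy q.1, extendZero_of_mem y q]
    · rw [hb, locA_eq_locAll, hxy q, extendZero_of_not_mem y hq]

end Fermat.Agent.S55
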