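/-
S55 / block BR-PKG : the fields `hnt`, `si`, `nonsplit` of `BRInput p` from the field-free exports
of DICT (`hasse_norm`, `index_CT_dvd`, `exists_nonsplitAt`).
-/
import Fermat.Agent.S55.BR.Pkg.Defs
import Fermat.Agent.S55.BR.LocalPlace
import Fermat.Agent.S55.Coh.Coset
import Fermat.Agent.S55.Dict.Hasse
import Fermat.Agent.S55.Dict.Index
import Fermat.Agent.S55.Dict.Nonsplit

set_option autoImplicit false

namespace Fermat.Agent.S55

open Dict (invD)

section InputDict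

variable {p : ℕ} [Fact p.Prime]

theorem KStep.kumStep {U' U : Subgroup GQ} (h : KStep p U' U) : Dict.KumStep p U' U where
  le := h.le
  isOpen := h.isOpen
  normal := by
    refine ⟨fun v hv g => ?_⟩
    rw [Subgroup.mem_subgroupOf] at hv ⊢
    have := h.norm (g⁻¹ : U) (g⁻¹ : U).2 v hv
    simpa using this
  index := h.idx
  mu := h.mu

theorem Dv_eq_Dec (q : Nat.Primes) : Dv q = Dict.Dec (Dict.pl q) := Dv_eq q

theorem hnt_of_nitOut (hp2 : p ≠ 2) (N : Dict.NITOut p) : HNT p := by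
  intro U' U h _ a ha hloc
  exact Dict.hasse_norm Fact.out hp2 N h.kumStep a ha (fun q => by
    rw [← Dv_eq_Dec]
    exact hloc q)

/-- abstract form: in a group `A` with a subgroup `C` of index dividing the prime `p`, every element
is a multiple of any given element outside `C`, modulo `C` -/
theorem exists_nsmul_add_mem_of_index_dvd {A : Type} [AddCommGroup A] (C : AddSubgroup A)
    (hC : C.index ∣ p) {b' : A} (hb' : b' ∉ C) (b : A) : ∃ j : ℕ, b - j • b' ∈ C := by
  have hp : p.Prime := Fact.out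
  have hidx : C.index = p := by
    rcases (Nat.dvd_prime hp).1 hC with h | h
    · exfalso
      rw [AddSubgroup.index_eq_one] at h
      exact hb' (h ▸ AddSubgroup.mem_top b')
    · exact h
  have hcard : Nat.card (A ⧸ C) = p := hidx
  have hne : ((b' : A) : A ⧸ C) ≠ 0 := by
    intro h
    exact hb' ((QuotientAddGroup.eq_zero_iff b').1 h)
  obtain ⟨j, hj⟩ := mem_multiples_of_prime_card hcard hne (g' := ((b : A) : A ⧸ C))
  refine ⟨j, ?_⟩
  rw [← QuotientAddGroup.eq_zero_iff]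
  have hj' : j • ((b' : A) : A ⧸ C) = ((b : A) : A ⧸ C) := hj
  rw [QuotientAddGroup.mk_sub, QuotientAddGroup.mk_nsmul, hj', sub_self]

theorem secondIneq_of_nitOut (hp2 : p ≠ 2) (N : Dict.NITOut p) : SecondIneq p := by
  classical
  intro U' U h _ b b' hb hb' hfin hfin' hnot
  set T : Finset Nat.Primes := hfin.toFinset ∪ hfin'.toFinset with hT
  have hb0 : ∀ q, q ∉ T → b q = 0 := by
    intro q hq
    by_contra hne
    exact hq (Finset.mem_union_left _ (hfin.mem_toFinset.2 hne))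
  have hb'0 : ∀ q, q ∉ T → b' q = 0 := by
    intro q hq
    by_contra hne
    exact hq (Finset.mem_union_right _ (hfin'.mem_toFinset.2 hne))
  let β : ∀ q : T, invD (Dict.Dec (Dict.pl q.1)) (GQ ⧸ U) := fun q =>
    ⟨b q.1, by rw [← Dv_eq_Dec]; exact hb q.1⟩
  let β' : ∀ q : T, invD (Dict.Dec (Dict.pl q.1)) (GQ ⧸ U) := fun q =>
    ⟨b' q.1, by rw [← Dv_eq_Dec]; exact hb' q.1⟩
  have hβ' : β' ∉ Dict.CT (cosetMap h.kumStep.le) T := by
    rintro ⟨a, ha, h1, h2⟩
    apply hnot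
    refine ⟨a, ha, fun q => ?_⟩
    rw [Dv_eq_Dec]
    by_cases hq : q ∈ T
    · obtain ⟨f, hf, hfa⟩ := h2 ⟨q, hq⟩
      refine ⟨f, hf, ?_⟩
      have hfa' : IndMod.push Kx (cosetMap h.le) f = b' q - a := hfa
      rw [hfa']
      abel
    · obtain ⟨f, hf, hfa⟩ := h1 q hq
      refine ⟨-f, (invD _ _).neg_mem hf, ?_⟩
      have hfa' : IndMod.push Kx (cosetMap h.le) f = a := hfa
      rw [hb'0 q hq, map_neg, hfa']
      abel
  obtain ⟨j, a, ha, h1, h2⟩ := exists_nsmul_add_mem_of_index_dvd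
    (Dict.CT (cosetMap h.kumStep.le) T) (Dict.index_CT_dvd Fact.out hp2 N h.kumStep T) hβ' β
  refine ⟨j, a, ha, fun q => ?_⟩
  rw [Dv_eq_Dec]
  by_cases hq : q ∈ T
  · obtain ⟨f, hf, hfa⟩ := h2 ⟨q, hq⟩
    refine ⟨f, hf, ?_⟩
    have hfa' : IndMod.push Kx (cosetMap h.le) f = b q - j • b' q - a := hfa
    rw [hfa']
    abel
  · obtain ⟨f, hf, hfa⟩ := h1 q hq
    refine ⟨-f, (invD _ _).neg_mem hf, ?_⟩
    have hfa' : IndMod.push Kx (cosetMap h.le) f = a := hfa
    rw [hb0 q hq, hb'0 q hq, map_neg, hfa', nsmul_zero]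
    abel

theorem nonSplit_of_nitOut (hp2 : p ≠ 2) (N : Dict.NITOut p) : NonSplit p := by
  intro U' U h T₀
  have hp : p.Prime := Fact.out
  have hfin : Finite (GQ ⧸ U') := finite_coset h.isOpen
  obtain ⟨q, hq, x, hx⟩ := Dict.exists_nonsplitAt hp hp2 N h.kumStep T₀
  have hcard : Nat.card {y // cosetMap h.le y = x} = p := by
    rw [cosetMap_card_fiber, h.idx]
  have hnt : Nontrivial {y // cosetMap h.le y = x} := by
    rw [← Finite.one_lt_card_iff_nontrivial, hcard]
    exact hp.one_lt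
  obtain ⟨⟨y, hy⟩, ⟨y', hy'⟩, hne⟩ := exists_pair_ne {y // cosetMap h.le y = x}
  obtain ⟨d, hd, hdy⟩ := hx y y' hy hy'
  refine ⟨q, hq, y, d, by rw [Dv_eq_Dec]; exact hd, ?_, ?_⟩
  · rw [hdy]
    intro h1
    exact hne (Subtype.ext h1.symm)
  · rw [hdy, hy', hy]

end InputDict

end Fermat.Agent.S55
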