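/-
S55 / block BR-PKG (architect helper176, owner helper289) : the fields `locBr`, `units` of
`BRInput p` from `LocPkg`.
-/
import Fermat.Agent.S55.BR.Pkg.Defs
import Fermat.Agent.S55.Arith.LocInterface

set_option autoImplicit false

namespace Fermat.Agent.S55

section InputLoc

variable {p : ℕ}

theorem locBr_of_locPkg {q : Nat.Primes} (L : LocPkg p q) : LocBr p q L.inv := by
  intro V hV _
  have : SmoothSet (lvlLoc q) (Gv q ⧸ V) := SmoothSet.quotient _ hV
  exact ⟨fun y hy h => L.L3inj (Gv q ⧸ V) y hy h, fun c hc => L.L3surj (Gv q ⧸ V) c hc⟩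

/-- `H^n_q(Map(X, Kx)) → H^n(G_q, Map(Res X, Kx))` is injective (it is an isomorphism) -/
theorem InputLoc_map_toResSet_injective (q : Nat.Primes) (X : Type) [MulAction GQ X] (n : ℕ) :
    Function.Injective (Hsm.map (𝓝 := lvlLoc q) (IndMod.toResSet (ιv q) X Kx) n) := by
  refine Function.LeftInverse.injective
    (g := Hsm.map (𝓝 := lvlLoc q) (IndMod.ofResSet (ιv q) X Kx) n) fun x => ?_
  rw [← Hsm.map_comp]
  exact Hsm.map_id' (fun a => IndMod.ofResSet_toResSet (ιv q) X Kx a) n x

theorem unramUnits_of_locPkg (L : ∀ q, LocPkg p q) : UnramUnits := by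
  intro q X _ _ _ N _ z hz hin hunit
  apply InputLoc_map_toResSet_injective q X 2
  rw [map_zero]
  have hsm : SmoothSet (lvlLoc q) (ResSet (ιv q) X) :=
    inferInstanceAs (SmoothSet (lvlAll.comap (ιv q)) (ResSet (ιv q) X))
  refine (L q).L7 (ResSet (ιv q) X) _ (N.comap (ιv q)) ?_ ?_ ?_ ?_
  · intro τ hτ
    exact (hin _ hτ).1
  · intro g h hgh
    have h1 : z.1 (fun i => ιv q (g i)) = z.1 (fun i => ιv q (h i)) := by
      refine hz _ _ fun i => ?_
      have := hgh i
      rwa [Subgroup.mem_comap, map_mul, map_inv] at this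
    show IndMod.toResSet (ιv q) X Kx (ResMod.toRes (ιv q) (z.1 fun i => ιv q (g i))) =
      IndMod.toResSet (ιv q) X Kx (ResMod.toRes (ιv q) (z.1 fun i => ιv q (h i)))
    rw [h1]
  · intro τ hτ y
    exact ResSet.ext ((hin _ hτ).2 y.val)
  · intro g y
    exact hunit (fun i => ιv q (g i)) y.val

end InputLoc

end Fermat.Agent.S55
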