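/-
S55 / block BR-PKG (helper176) : the field `symbol` of `BRInput p` from the field `L6` of `LocPkg`.
-/
import Fermat.Agent.S55.BR.Pkg.Defs
import Fermat.Agent.S55.BR.LocalPlace
import Fermat.Agent.S55.BR.H0
import Fermat.Agent.S55.Arith.LocInterface
import Fermat.Agent.S55.Coh.ThetaLoc

set_option autoImplicit false

namespace Fermat.Agent.S55

section InputSymbol

/-- natural numbers prime to `q` are units at a place over `q` -/
theorem InputSymbol.valuation_natCast_eq_one {q : ℕ} (hq : q.Prime) {A : ValuationSubring Qb}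
    (hA : A.LiesOverPrime q) (m : ℕ) (hm : ¬ q ∣ m) : A.valuation (m : Qb) = 1 := by
  have hcop : IsCoprime (q : ℤ) (m : ℤ) :=
    Nat.isCoprime_iff_coprime.2 ((Nat.Prime.coprime_iff_not_dvd hq).2 hm)
  obtain ⟨a, b, hab⟩ := hcop
  have h1 : (q : Qb) ∈ A.nonunits := hA
  rw [ValuationSubring.mem_nonunits_iff] at h1
  have ha : A.valuation (a : Qb) ≤ 1 := (A.valuation_le_one_iff _).2 (intCast_mem A a)
  have hb : A.valuation (b : Qb) ≤ 1 := (A.valuation_le_one_iff _).2 (intCast_mem A b)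
  have hm1 : A.valuation (m : Qb) ≤ 1 := (A.valuation_le_one_iff _).2 (natCast_mem A m)
  by_contra hne
  have hlt : A.valuation (m : Qb) < 1 := lt_of_le_of_ne hm1 hne
  have h3 : A.valuation ((a : Qb) * q) < 1 := by
    rw [map_mul]; exact lt_of_le_of_lt (mul_le_of_le_one_left' ha) h1
  have h4 : A.valuation ((b : Qb) * m) < 1 := by
    rw [map_mul]; exact lt_of_le_of_lt (mul_le_of_le_one_left' hb) hlt
  have h5 : A.valuation ((a : Qb) * q + (b : Qb) * m) < 1 :=
    lt_of_le_of_lt (A.valuation.map_add _ _) (max_lt h3 h4)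
  have h6 : ((a : Qb) * q + (b : Qb) * m) = 1 := by exact_mod_cast congrArg (Int.cast : ℤ → Qb) hab
  rw [h6, map_one] at h5
  exact lt_irrefl _ h5

/-- the valuation of a nonzero natural number at a place over `q` -/
theorem InputSymbol.valuation_natCast {q : ℕ} (hq : q.Prime) {A : ValuationSubring Qb}
    (hA : A.LiesOverPrime q) (n : ℕ) (hn : n ≠ 0) :
    A.valuation (n : Qb) = A.valuation (q : Qb) ^ padicValNat q n := by
  have h1 : (n : Qb) = (q : Qb) ^ n.factorization q * ((n / q ^ n.factorization q : ℕ) : Qb) := by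
    conv_lhs => rw [← Nat.ordProj_mul_ordCompl_eq_self n q]
    push_cast
    rfl
  rw [h1, map_mul, map_pow,
    InputSymbol.valuation_natCast_eq_one hq hA _ (Nat.not_dvd_ordCompl hq hn), mul_one,
    Nat.factorization_def n hq]

/-- the valuation of a rational number at the chosen place over `q` -/
theorem hasOrdAt_ratKx (q : Nat.Primes) (a : ℚˣ) :
    HasOrdAt q (ratKx a) (padicValRat q (a : ℚ)) := by
  have hA : (plc q).LiesOverPrime (q : ℕ) := Av_liesOverPrime q
  have hq : (q : ℕ).Prime := q.2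
  have hv0 : (plc q).valuation ((q : ℕ) : Qb) ≠ 0 :=
    (map_ne_zero _).2 (Nat.cast_ne_zero.2 hq.ne_zero)
  show (plc q).valuation (algebraMap ℚ Qb (a : ℚ)) = _
  have ha0 : (a : ℚ) ≠ 0 := a.ne_zero
  have hnum : (a : ℚ).num.natAbs ≠ 0 := Int.natAbs_ne_zero.2 (Rat.num_ne_zero.2 ha0)
  have h1 : (plc q).valuation (algebraMap ℚ Qb (a : ℚ)) =
      (plc q).valuation (((a : ℚ).num.natAbs : ℕ) : Qb) / (plc q).valuation (((a : ℚ).den : ℕ) : Qb) := by
    have e : algebraMap ℚ Qb (a : ℚ) = (((a : ℚ).num : ℤ) : Qb) / (((a : ℚ).den : ℕ) : Qb) := by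
      conv_lhs => rw [← Rat.num_div_den (a : ℚ)]
      rw [map_div₀, map_intCast, map_natCast]
    rw [e, map_div₀]
    congr 1
    rcases Int.natAbs_eq (a : ℚ).num with h | h
    · conv_lhs => rw [h]
      rw [Int.cast_natCast]
    · conv_lhs => rw [h]
      rw [Int.cast_neg, Valuation.map_neg, Int.cast_natCast]
  rw [h1, InputSymbol.valuation_natCast hq hA _ hnum,
    InputSymbol.valuation_natCast hq hA _ (a : ℚ).den_ne_zero, padicValRat_def, padicValInt,
    zpow_sub₀ hv0, zpow_natCast, zpow_natCast]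

theorem InputSymbol.toQZ_eq_mk (x : ℚ) : toQZ x = QZ.mk x := rfl

theorem unramSymbol_of_locPkg {p : ℕ} (L : ∀ q, LocPkg p q) :
    UnramSymbol (fun q => (L q).inv) 1 := by
  intro q X' _ _ _ u σ m h k φ hin hφ hk a
  have i1 : SmoothSet (lvlLoc q) (ResSet (ιv q) X') :=
    inferInstanceAs (SmoothSet (lvlAll.comap (ιv q)) (ResSet (ιv q) X'))
  have i2 : SmoothSet (lvlLoc q) (ResSet (ιv q) PUnit) :=
    inferInstanceAs (SmoothSet (lvlAll.comap (ιv q)) (ResSet (ιv q) PUnit))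
  have i3 : MulAction.IsPretransitive (Gv q) (ResSet (ιv q) PUnit) :=
    ⟨fun x y => ⟨1, ResSet.ext rfl⟩⟩
  have i4 : Smooth (lvlLoc q) (KL q) :=
    inferInstanceAs (Smooth (lvlAll.comap (ιv q)) (ResMod (ιv q) Kx))
  obtain ⟨x', -⟩ := h.surj PUnit.unit
  obtain ⟨φ', rfl⟩ : φ ∈ Dv q := by
    rw [Dv_eq]
    exact hφ.mem_decompositionSubgroup
  have hcard : Nat.card (ResSet (ιv q) PUnit) = 1 := by
    rw [← Nat.card_congr (ResSet.equiv (ιv q) (X := PUnit))]
    simp
  have key := (L q).L6 (ResSet (ιv q) PUnit) (ResSet (ιv q) X') (ResSet.map (ιv q) u)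
    (ResSet.map (ιv q) σ) m (h.resSet (ιv q))
    (fun τ hτ y' => ResSet.ext (hin (ιv q τ) hτ y'.val)) φ' hφ (ResSet.of x') k
    (by
      rw [hcard, pow_one]
      refine ResSet.ext ?_
      rw [ResSet.val_iterate_map]
      exact hk x')
    (Hsm.resInd lvlAll (ιv q) Kx (lvlLoc q) (LevelSys.Le.refl _) PUnit 0 (ratH0 PUnit a))
    (padicValRat q (a : ℚ)) (hasOrdAt_ratKx q a)
  have hθ := CyclicCover.theta_resInd lvlAll (ιv q) Kx (lvlLoc q) (LevelSys.Le.refl _) h 0
    (ratH0 PUnit a)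
  have key' : invY q (ResSet (ιv q) PUnit) (L q).inv
      ((h.resSet (ιv q)).theta (lvlLoc q) (ResMod (ιv q) Kx) 0
        (Hsm.resInd lvlAll (ιv q) Kx (lvlLoc q) (LevelSys.Le.refl _) PUnit 0 (ratH0 PUnit a))) =
      QZ.mk ((padicValRat q (a : ℚ) * k : ℚ) / m) := key
  rw [one_smul, InputSymbol.toQZ_eq_mk, ← key', hθ]
  show (L q).inv (Hsm.map (ResMod.map (ιv q) (IndMod.sum PUnit Kx)) 2
      (locAll (IndMod PUnit Kx) q 2 (h.theta lvlAll Kx 0 (ratH0 PUnit a)))) =
    (L q).inv (Hsm.map (IndMod.sum (ResSet (ιv q) PUnit) (KL q)) 2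
      (Hsm.map (IndMod.toResSet (ιv q) PUnit Kx) 2
        (locAll (IndMod PUnit Kx) q 2 (h.theta lvlAll Kx 0 (ratH0 PUnit a)))))
  rw [← Hsm.map_comp' (χ := ResMod.map (ιv q) (IndMod.sum PUnit Kx))
    (fun F => (IndMod.sum_toResSet (ιv q) Kx F).symm)]

end InputSymbol

end Fermat.Agent.S55
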