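/-
S55 / block BR-PKG : THE EXPORT of blocks BR + BR-PKG: `brPkg hp2 L N : BrPkg p L` (helper176).
-/
import Fermat.Agent.S55.BR.Pkg.BrPkg
import Fermat.Agent.S55.BR.Pkg.InputDict
import Fermat.Agent.S55.BR.Pkg.InputLoc
import Fermat.Agent.S55.BR.Pkg.InputSymbol
import Fermat.Agent.S55.Arith.Hilbert90

set_option autoImplicit false

namespace Fermat.Agent.S55

variable {p : ℕ} [Fact p.Prime]

/-- **(P1)** everything BR consumes, from LOC (`LocPkg`), DICT/NIT (`NITOut`) and Hilbert 90. -/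
noncomputable def brInputOf (hp2 : p ≠ 2) (L : ∀ q, LocPkg p q) (N : Dict.NITOut p) : BRInput p where
  inv q := (L q).inv
  sgn := 1
  h90g X _ _ _ y := hilbert90_global X y
  h90l q X _ _ _ y := hilbert90_local_res q X y
  hnt := hnt_of_nitOut hp2 N
  si := secondIneq_of_nitOut hp2 N
  nonsplit := nonSplit_of_nitOut hp2 N
  locBr q := locBr_of_locPkg (L q)
  symbol := unramSymbol_of_locPkg L
  units := unramUnits_of_locPkg L

/-- **THE BRAUER PACKAGE.** -/
theorem brPkg (hp2 : p ≠ 2) (L : ∀ q, LocPkg p q) (N : Dict.NITOut p) : BrPkg p L :=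
  brPkg_of hp2 L (brInputOf hp2 L N) fun _ => rfl

end Fermat.Agent.S55
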